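/-
Pinning of the eigenvalues over `F = ℚ(√-3)` for a surjective mod 3 representation.
-/
import Fermat.Agent.Extra.LTGen.Galois.Field
import Fermat.Agent.LT.Descent.MomentBound

set_option autoImplicit false

noncomputable section

namespace Fermat.Agent.Extra.LTGen.GalSide

open NumberField IsDedekindDomain Fermat.Agent.Galois Filter Topology
open Fermat.Agent.LT Fermat.Agent.LT.Adelic Fermat.Agent.LT.RankinSelberg Fermat.Agent.LT.Descent
open scoped Classical

variable {ρ : GalQ →* GL (Fin 2) (ZMod 3)}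

/-- **Pinning over `F`.** -/
theorem exists_smallPlaceSet_eq_octTrace (hρ : IsThreeRho ρ)
    {S : Set (HeightOneSpectrum (𝓞 fieldF))} (hS : S.Finite)
    (a : HeightOneSpectrum (𝓞 fieldF) → ℂ) {C : ℝ}
    (hquat : ∀ v, v ∉ S → (placeNorm v).Prime → ∀ σ, IsFrobOver fieldF v.asIdeal σ →
      ρ σ ∈ quatSubgroup → a v = octTrace ρ σ)
    (hcube : ∀ v, v ∉ S → (placeNorm v).Prime → ∀ σ, IsFrobOver fieldF v.asIdeal σ →
      ρ σ ∉ quatSubgroup → a v ^ 3 - 3 * a v = octTrace ρ σ ^ 3 - 3 * octTrace ρ σ)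
    (hmom : SquarefreeMomentBound
      (fun v : {v : HeightOneSpectrum (𝓞 fieldF) // v ∉ S ∧ (placeNorm v).Prime} => placeNorm v.1)
      (fun v => ‖a v.1‖ ^ 2) C) :
    ∃ X : Set (HeightOneSpectrum (𝓞 fieldF)), SmallPlaceSet X ∧
      ∀ v σ, IsFrobOver fieldF v.asIdeal σ → v ∉ X → a v = octTrace ρ σ := by
  obtain ⟨S₂, hS₂, hconj⟩ := Density.exists_finite_isConj_frobLift ρ hρ.factors
  set U : Subgroup (GL (Fin 2) (ZMod 3)) :=
    (Matrix.GeneralLinearGroup.det : GL (Fin 2) (ZMod 3) →* (ZMod 3)ˣ).ker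
  have hUker : U.comap ρ = kerOmega := by
    ext σ; simp [U, kerOmega, hρ.det]
  have hfix : ∀ σ, σ ∈ fieldF.fixingSubgroup ↔ ρ σ ∈ U := by
    intro σ
    rw [← Density.fixing_iff_mem ρ hρ.factors U σ, hUker, IntermediateField.mem_fixingSubgroup_iff]
    exact ⟨fun h x => h x x.2, fun h x hx => h ⟨x, hx⟩⟩
  have hdet : ∀ {v : HeightOneSpectrum (𝓞 fieldF)} {σ : GalQ}, IsFrobOver fieldF v.asIdeal σ →
      Matrix.GeneralLinearGroup.det (ρ σ) = 1 := fun h => MonoidHom.mem_ker.1 ((hfix _).1 h.1)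
  set g : HeightOneSpectrum (𝓞 fieldF) → ℝ := fun v =>
    octWeight (ρ (Density.frobLift (placeNorm v))) with hg
  have hcj : ∀ (p : ℕ), p.Prime → p ∉ S₂ → ∀ A : ValuationSubring Qbar, A.LiesOverPrime p →
      ∀ σ, A.IsFrobeniusAt σ p → octWeight (ρ (Density.frobLift p)) = octWeight (ρ σ) := by
    intro p hp hpS A hA σ hσ
    obtain ⟨c, hc⟩ := isConj_iff.1 (hconj p hp hpS A hA σ hσ)
    rw [← hc, isRationalClassFun_octWeight.conj]
  have hgB : ∀ v, |g v| ≤ 6 := fun v => by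
    simp only [hg, octWeight]; split_ifs <;> norm_num
  obtain ⟨C₁, hC₁⟩ := Density.exists_abs_placeSum_sub_le ρ fieldF.val U hρ.factors hρ.surjective
    (fun σ => by
      rw [← hfix, IntermediateField.mem_fixingSubgroup_iff]
      exact ⟨fun h x hx => h ⟨x, hx⟩, fun h x => h x x.2⟩)
    isRationalClassFun_octWeight g hgB hS₂ (fun v p hp hv hpS A hA σ hσ => by
      show octWeight (ρ (Density.frobLift (placeNorm v))) = _
      rw [show placeNorm v = p from hv]
      exact hcj p hp hpS A hA σ hσ)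
  have hmean : ∀ inst : ∀ x : GL (Fin 2) (ZMod 3), Decidable (x ∈ U),
      (∑ x : GL (Fin 2) (ZMod 3), @ite ℝ (x ∈ U) (inst x) (octWeight x) 0) / Nat.card U = 1 := by
    intro inst
    convert mean_octWeight
  have hC₁' : ∀ s : ℝ, 1 < s → s ≤ 2 →
      Summable (fun v => g v * (Ideal.absNorm v.asIdeal : ℝ) ^ (-s)) ∧
      |(∑' v, g v * (Ideal.absNorm v.asIdeal : ℝ) ^ (-s)) - 1 * Real.log (1 / (s - 1))| ≤ C₁ := by
    intro s h1 h2
    obtain ⟨hsum, hb⟩ := hC₁ s h1 h2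
    refine ⟨hsum, ?_⟩
    convert hb using 4
    exact (hmean _).symm
  set S' : Set (HeightOneSpectrum (𝓞 fieldF)) := S ∪ {v | placeNorm v ∈ insert 3 S₂} with hS'
  set I : Set (HeightOneSpectrum (𝓞 fieldF)) := {v | v ∉ S' ∧ (placeNorm v).Prime} with hI
  have hgood : ∀ v ∈ I, ∀ σ, IsFrobOver fieldF v.asIdeal σ →
      g v = octWeight (ρ σ) ∧ (a v = octTrace ρ σ ∨ (g v = 1 ∧ ‖a v‖ ^ 2 = 4)) := by
    rintro v ⟨hvS, hp⟩ σ hσ
    simp only [hS', Set.mem_union, Set.mem_ofPred_eq, Set.mem_insert_iff, not_or] at hvS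
    obtain ⟨hfixσ, A, hA, hd, hcong⟩ := hσ
    have heq := hcj _ hp hvS.2.2 A (liesOverPrime_of_placeAbove hA) σ
      (isFrobeniusAt_of_placeAbove hd hcong)
    have hσ' : IsFrobOver fieldF v.asIdeal σ := ⟨hfixσ, A, hA, hd, hcong⟩
    refine ⟨heq, ?_⟩
    by_cases hq : ρ σ ∈ quatSubgroup
    · exact Or.inl (hquat v hvS.1 hp σ hσ' hq)
    · obtain ⟨n, hn, hnw⟩ := exists_int_trace_octRep (hdet hσ')
      have ht : octTrace ρ σ = n := hn
      have hw := octWeight_eq_one hq (hdet hσ')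
      rw [hw] at hnw
      have hn1 : (n : ℂ) ^ 2 = 1 := by exact_mod_cast hnw
      have h0 := hcube v hvS.1 hp σ hσ' hq
      rw [ht] at h0
      have hfac : (a v - n) * ((a v - n) * (a v + 2 * n)) = 0 := by
        linear_combination h0 + (-3 * a v + 3 * (n : ℂ)) * hn1
      rcases mul_eq_zero.1 hfac with h | h
      · exact Or.inl (by rw [ht]; exact sub_eq_zero.1 h)
      rcases mul_eq_zero.1 h with h | h
      · exact Or.inl (by rw [ht]; exact sub_eq_zero.1 h)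
      · refine Or.inr ⟨heq.trans hw, ?_⟩
        rw [eq_neg_of_add_eq_zero_left h, norm_neg, norm_mul, mul_pow, ← norm_pow (n : ℂ), hn1]
        norm_num
  have hexists : ∀ v ∈ I, ∃ σ, IsFrobOver fieldF v.asIdeal σ := fun v hv =>
    exists_isFrobOver_fieldF v hv.2 fun h => hv.1 (Or.inr (Or.inl h))
  have hbounds : ∀ v ∈ I, 0 ≤ g v ∧ g v ≤ ‖a v‖ ^ 2 ∧ ‖a v‖ ^ 2 ≤ 6 := by
    intro v hv
    obtain ⟨σ, hσ⟩ := hexists v hv
    obtain ⟨hgv, hcase⟩ := hgood v hv σ hσ
    obtain ⟨n, hn, hnw⟩ := exists_int_trace_octRep (hdet hσ)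
    have h0 : 0 ≤ g v := by rw [hgv, ← hnw]; positivity
    rcases hcase with h | ⟨h1, h4⟩
    · have : ‖a v‖ ^ 2 = g v := by
        rw [h, show octTrace ρ σ = n from hn, hgv, ← hnw, Complex.norm_intCast, sq_abs]
      exact ⟨h0, this.ge, this.le.trans ((le_abs_self _).trans (hgB v))⟩
    · exact ⟨h0, by rw [h1, h4]; norm_num, by rw [h4]; norm_num⟩
  obtain ⟨D, hD⟩ : ∃ D : ℝ, ∀ T : Finset I, ∑ v ∈ T, (((placeNorm v.1 : ℕ) : ℝ) ^ 2)⁻¹ ≤ D := by
    have hs := (S14.summable_primeNorm (K := fieldF) (show (1 : ℝ) < 2 by norm_num)).comp_injective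
      (Subtype.val_injective (p := fun v => v ∈ I))
    refine ⟨_, fun T => le_trans (le_of_eq (Finset.sum_congr rfl fun v _ => ?_))
      (hs.sum_le_tsum T fun v _ => ?_)⟩
    · simp [S14.primeNorm, placeNorm, Real.rpow_neg, Real.rpow_two]
    · exact Real.rpow_nonneg (Nat.cast_nonneg _) _
  have hmom' : SquarefreeMomentBound (fun v : I => placeNorm v.1) (fun v => ‖a v.1‖ ^ 2) C := by
    intro 𝒯 X hX h𝒯
    let ι : I ↪ {v : HeightOneSpectrum (𝓞 fieldF) // v ∉ S ∧ (placeNorm v).Prime} :=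
      ⟨fun v => ⟨v.1, fun h => v.2.1 (Or.inl h), v.2.2⟩, fun v w h => by
        simpa [Subtype.ext_iff] using h⟩
    have hι : ∀ v, (ι v).1 = v.1 := fun v => rfl
    have h := hmom (𝒯.map (Finset.mapEmbedding ι).toEmbedding) X hX (by
      intro T hT
      obtain ⟨T₀, hT₀, rfl⟩ := Finset.mem_map.1 hT
      simpa [Finset.mapEmbedding_apply, hι] using h𝒯 T₀ hT₀)
    simpa [Finset.mapEmbedding_apply, hι] using h
  have hcompl : SmallPlaceSet Iᶜ := by
    have : Iᶜ = S' ∪ {v | ¬ (placeNorm v).Prime} := by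
      ext v; simp [hI, hS']; tauto
    rw [this]
    exact smallPlaceSet_union (smallPlaceSet_of_finite
      (hS.union (finite_placeNorm_mem (hS₂.insert 3)))) (smallPlaceSet_not_prime _)
  have hN1 : ∀ v : HeightOneSpectrum (𝓞 fieldF), 1 ≤ placeNorm v := fun v =>
    Nat.one_le_iff_ne_zero.2 fun h => v.ne_bot (Ideal.absNorm_eq_zero_iff.1 h)
  have key := summable_inv_of_pinned (ι := I) (N := fun v => placeNorm v.1)
    (x := fun v => ‖a v.1‖ ^ 2) (y := fun v => g v.1) (δ := 3)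
    (B' := C₁ + 6 * ∑' v, Iᶜ.indicator (fun v => (1 : ℝ) / (Ideal.absNorm v.asIdeal : ℝ)) v)
    (by norm_num) (fun v => hN1 v.1) (fun v => (hbounds v v.2).1) (fun v => (hbounds v v.2).2.1)
    (fun T s h1 h2 => sum_mul_rpow_le_log hmom' (fun v => hN1 v.1) (fun v => sq_nonneg _)
      (fun v => (hbounds v v.2).2.2) hD T h1 h2)
    (by
      filter_upwards [Ioo_mem_nhdsGT (show (1 : ℝ) < 2 by norm_num)] with s hs
      obtain ⟨hsum, habs⟩ := hC₁' s hs.1 hs.2.le
      rw [one_mul, one_div, Real.log_inv, abs_le] at habs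
      set f := fun v : HeightOneSpectrum (𝓞 fieldF) =>
        g v * (Ideal.absNorm v.asIdeal : ℝ) ^ (-s) with hf
      have hle : (∑' v, f v) ≤ (∑' v, I.indicator f v) +
          6 * ∑' v, Iᶜ.indicator (fun v => (1 : ℝ) / (Ideal.absNorm v.asIdeal : ℝ)) v := by
        rw [← tsum_mul_left, ← (hsum.indicator I).tsum_add (hcompl.mul_left 6)]
        refine hsum.tsum_le_tsum (fun v => ?_) ((hsum.indicator I).add (hcompl.mul_left 6))
        by_cases hv : v ∈ I
        · rw [Set.indicator_of_mem hv, Set.indicator_of_notMem (Set.notMem_compl_iff.2 hv),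
            mul_zero, add_zero]
        · rw [Set.indicator_of_notMem hv, Set.indicator_of_mem (Set.mem_compl hv), zero_add]
          refine mul_le_mul ((le_abs_self _).trans (hgB v)) ?_ (by positivity) (by norm_num)
          rw [one_div, ← Real.rpow_neg_one]
          exact Real.rpow_le_rpow_of_exponent_le (by exact_mod_cast hN1 v) (by linarith [hs.1])
      rw [← tsum_subtype I f] at hle
      change _ ≤ ∑' v : I, f v.1
      linarith)
  refine ⟨Iᶜ ∪ {v | v ∈ I ∧ g v + 3 ≤ ‖a v‖ ^ 2}, smallPlaceSet_union hcompl ?_,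
    fun v σ hσ hv => ?_⟩
  · refine summable_subtype_iff_indicator.1 ?_
    let e : {v // v ∈ {v | v ∈ I ∧ g v + 3 ≤ ‖a v‖ ^ 2}} →
        {i : I // g i.1 + 3 ≤ ‖a i.1‖ ^ 2} := fun v => ⟨⟨v.1, v.2.1⟩, v.2.2⟩
    have he : Function.Injective e := fun v w h => Subtype.ext (congrArg (fun z => z.1.1) h)
    refine (key.comp_injective he).congr fun v => ?_
    simp [e, placeNorm]
  · simp only [Set.mem_union, Set.mem_compl_iff, Set.mem_ofPred_eq, not_or, not_not] at hv
    rcases (hgood v hv.1 σ hσ).2 with h | ⟨h1, h4⟩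
    · exact h
    · exact absurd ⟨hv.1, by rw [h1, h4]; norm_num⟩ hv.2

/-- **Pinning.**  A cusp eigenform over `ℚ(√-3)` with the cube relation has the octahedral traces
as eigenvalues outside a small set of places. -/
theorem exists_smallPlaceSet_of_isCuspEigen (hρ : IsThreeRho ρ) {Φ : Frame fieldF Unit}
    {U : Subgroup (GfK fieldF)} {φ : Space Φ U → ℂ} {S : Set (HeightOneSpectrum (𝓞 fieldF))}
    {a : HeightOneSpectrum (𝓞 fieldF) → ℂ} (hS : S.Finite) (hU : IsLevel U)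
    (hφ : LT.IsCuspEigen φ) (heig : ∀ v ∉ S, IsHeckeEigenAt φ v (a v))
    (hquat : ∀ v, v ∉ S → (placeNorm v).Prime → ∀ σ, IsFrobOver fieldF v.asIdeal σ →
      ρ σ ∈ quatSubgroup → a v = octTrace ρ σ)
    (hcube : ∀ v, v ∉ S → (placeNorm v).Prime → ∀ σ, IsFrobOver fieldF v.asIdeal σ →
      ρ σ ∉ quatSubgroup → a v ^ 3 - 3 * a v = octTrace ρ σ ^ 3 - 3 * octTrace ρ σ) :
    ∃ X : Set (HeightOneSpectrum (𝓞 fieldF)), SmallPlaceSet X ∧
      ∀ v σ, IsFrobOver fieldF v.asIdeal σ → v ∉ X → a v = octTrace ρ σ := by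
  obtain ⟨S', n, hSS, hS', hn, hnU⟩ := exists_supportedIn_superset hS hU
  have heig' : ∀ v ∉ S', IsHeckeEigenAt φ v (a v) := fun v hv => heig v fun h => hv (hSS h)
  obtain ⟨C, hC⟩ := exists_squarefreeMomentBound_of_level hS' hU hn hnU hφ heig'
    (Subtype.val : {v : HeightOneSpectrum (𝓞 fieldF) // v ∉ S' ∧ (placeNorm v).Prime} → _)
    Subtype.val_injective fun i => i.2.1
  exact exists_smallPlaceSet_eq_octTrace hρ hS' a
    (fun v hv => hquat v fun h => hv (hSS h)) (fun v hv => hcube v fun h => hv (hSS h)) hC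

end Fermat.Agent.Extra.LTGen.GalSide
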