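/-
The places of `F'/F` for the general descent.
-/
import Fermat.Agent.Extra.LTGen.Galois.Field
import Fermat.Agent.LT.Descent.Places

set_option autoImplicit false

noncomputable section

open Fermat.Agent.Galois Fermat.Agent.LT Fermat.Agent.LT.Descent Fermat.Agent.LT.Descent.Places
open NumberField WeierstrassCurve IsDedekindDomain
open scoped MatrixGroups Pointwise

namespace Fermat.Agent.Extra.LTGen.GalSide

variable {ρ : GalQ →* GL (Fin 2) (ZMod 3)} (hρ : IsThreeRho ρ) {g : GalQ} (hg : ρ g = unipThree)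
  [NumberField (fieldF' ρ)]

omit [NumberField (fieldF' ρ)] in
theorem mem_fixingSubgroup_fieldF (hρ : IsThreeRho ρ) {τ : GalQ} :
    τ ∈ fieldF.fixingSubgroup ↔ τ ∈ kerOmega := by
  rw [IntermediateField.mem_fixingSubgroup_iff, ← mem_kerOmega_iff_fixes hρ τ]
  exact ⟨fun h x => h x x.2, fun h x hx => h ⟨x, hx⟩⟩

omit [NumberField (fieldF' ρ)] in
theorem mem_fixingSubgroup_fieldF' (hρ : IsThreeRho ρ) {τ : GalQ} :
    τ ∈ (fieldF' ρ).fixingSubgroup ↔ ρ τ ∈ quatSubgroup := by
  rw [IntermediateField.mem_fixingSubgroup_iff, ← fixing_fieldF'_iff hρ τ]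
  exact ⟨fun h x => h x x.2, fun h x hx => h ⟨x, hx⟩⟩

omit [NumberField (fieldF' ρ)] in
theorem isAbove_iff_placeAbove {v : HeightOneSpectrum (𝓞 fieldF)}
    {w : HeightOneSpectrum (𝓞 (fieldF' ρ))} {A : ValuationSubring Qbar}
    (hA : PlaceAbove (fieldF' ρ) w.asIdeal A) :
    letI := algFieldF hρ
    IsAbove v w ↔ PlaceAbove fieldF v.asIdeal A := by
  letI := algFieldF hρ
  exact ⟨fun h x => (h x).symm.trans (hA _), fun h x => (hA _).trans (h x).symm⟩

theorem placeAbove_placePerm {w : HeightOneSpectrum (𝓞 (fieldF' ρ))} {A : ValuationSubring Qbar}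
    (hA : PlaceAbove (fieldF' ρ) w.asIdeal A) :
    letI := algFieldF hρ
    PlaceAbove (fieldF' ρ) (Tame.placePerm (cubicTwist hρ hg).σ.toRingEquiv w).asIdeal
      (g⁻¹ • A) := by
  letI := algFieldF hρ
  intro x
  rw [Tame.mem_placePerm, hA]
  conv_rhs => rw [← apply_mem_nonunits_smul_iff g, smul_inv_smul]
  rfl

/-- A Frobenius over a place of `F'` conjugates to one over the moved place. -/
theorem isFrobOver_placePerm {w : HeightOneSpectrum (𝓞 (fieldF' ρ))} {τ : GalQ}
    (hτ : IsFrobOver (fieldF' ρ) w.asIdeal τ)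
    (hN : letI := algFieldF hρ
      Ideal.absNorm (Tame.placePerm (cubicTwist hρ hg).σ.toRingEquiv w).asIdeal =
        Ideal.absNorm w.asIdeal) :
    letI := algFieldF hρ
    IsFrobOver (fieldF' ρ) (Tame.placePerm (cubicTwist hρ hg).σ.toRingEquiv w).asIdeal
      (g⁻¹ * τ * g) := by
  letI := algFieldF hρ
  obtain ⟨hfix, A, hA, hd, hcong⟩ := hτ
  refine ⟨(mem_fixingSubgroup_fieldF' hρ).2 ?_, g⁻¹ • A, placeAbove_placePerm hρ hg hA, ?_, ?_⟩
  · have := Density.normal_quatSubgroup.conj_mem _ ((mem_fixingSubgroup_fieldF' hρ).1 hfix) (ρ g)⁻¹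
    rwa [inv_inv, ← map_inv, ← map_mul, ← map_mul] at this
  · rw [mem_decomposition_smul_iff]
    simpa [mul_assoc] using hd
  · intro x hx
    rw [RankinSelberg.natCard_quotient, RankinSelberg.placeNorm, hN]
    rw [RankinSelberg.natCard_quotient, RankinSelberg.placeNorm] at hcong
    rw [← apply_mem_nonunits_smul_iff g, smul_inv_smul, map_sub, map_pow,
      AlgEquiv.mul_apply, AlgEquiv.mul_apply, galQ_apply_inv]
    refine hcong (g x) ?_
    have h := (apply_mem_smul_iff (A := g⁻¹ • A) g (x := x)).2 hx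
    rwa [smul_inv_smul] at h

theorem isCubicGen :
    letI := algFieldF hρ
    IsCubicGen (cubicTwist hρ hg).σ := by
  letI := algFieldF hρ
  refine ⟨fun h => unipThree_not_mem (hg ▸ (fixing_fieldF'_iff hρ g).1 fun x => ?_),
    (cubicTwist hρ hg).order_three, (cubicTwist hρ hg).fixed⟩
  exact congrArg Subtype.val (DFunLike.congr_fun h x)

include hρ hg in
theorem isInert_or_isSplit {v : HeightOneSpectrum (𝓞 fieldF)} (h3 : (3 : 𝓞 fieldF) ∉ v.asIdeal)
    (ht : letI := algFieldF hρ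
      v ∉ tamePlaces (cubicTwist hρ hg).σ) :
    letI := algFieldF hρ
    IsInert (cubicTwist hρ hg).σ v ∨ IsSplit (cubicTwist hρ hg).σ v := by
  letI := algFieldF hρ
  exact (trichotomy (isCubicGen hρ hg) v h3).resolve_left ht

/-- At a split place a Frobenius lies in `Q₈` and gives Frobenius elements at all places above,
with the same trace of the octahedral lift. -/
theorem split_frobenius {v : HeightOneSpectrum (𝓞 fieldF)}
    (hv : letI := algFieldF hρ
      IsSplit (cubicTwist hρ hg).σ v)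
    {τ : GalQ} (hτ : IsFrobOver fieldF v.asIdeal τ) :
    ρ τ ∈ quatSubgroup ∧
      letI := algFieldF hρ
      ∀ w : HeightOneSpectrum (𝓞 (fieldF' ρ)), IsAbove v w →
        ∃ τ', IsFrobOver (fieldF' ρ) w.asIdeal τ' ∧ octTrace ρ τ' = octTrace ρ τ := by
  letI := algFieldF hρ
  have hσ := isCubicGen hρ hg
  obtain ⟨hfixF, A, hA, hd, hcong⟩ := hτ
  obtain ⟨p, -, -, hp, -, -, hAp⟩ := exists_liesOverPrime hA
  obtain ⟨w, hAw⟩ := exists_place_under (L := fieldF' ρ) hAp hp
  have hw : IsAbove v w := (isAbove_iff_placeAbove hρ hAw).2 hA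
  obtain ⟨h01, h02, -⟩ := IsSplit.distinct hσ hv hw
  obtain ⟨i, hi⟩ := exists_pow_mul hρ hg ((mem_fixingSubgroup_fieldF hρ).1 hfixF)
  have hres : ∀ x : fieldF' ρ, τ (x : Qbar) = (g ^ (i : ℕ)) (x : Qbar) := fun x => by
    have h1 := congrArg (g ^ (i : ℕ)) ((fixing_fieldF'_iff hρ _).2 hi x)
    rwa [AlgEquiv.mul_apply, AlgEquiv.aut_inv, AlgEquiv.apply_symm_apply] at h1
  have hi0 : i = 0 := by
    have hmem : ∀ r : 𝓞 (fieldF' ρ), (g ^ (i : ℕ)) ((r : fieldF' ρ) : Qbar) ∈ A.nonunits ↔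
        r ∈ w.asIdeal := fun r => by
      rw [← hres, decomposition_apply_mem_nonunits_iff hd]
      exact (hAw r).symm
    fin_cases i
    · rfl
    · refine absurd (HeightOneSpectrum.ext (Ideal.ext fun r => ?_)) h01
      exact ((Tame.mem_placePerm _ w r).trans (hAw _)).trans (hmem r)
    · refine absurd (HeightOneSpectrum.ext (Ideal.ext fun r => ?_)) h02
      exact (((Tame.mem_placePerm _ _ r).trans (Tame.mem_placePerm _ w _)).trans
        (hAw _)).trans (hmem r)
  subst hi0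
  have hq : ρ τ ∈ quatSubgroup := by simpa using hi
  refine ⟨hq, fun w' hw' => ?_⟩
  have hN : ∀ u : HeightOneSpectrum (𝓞 (fieldF' ρ)), IsAbove v u →
      Ideal.absNorm (Tame.placePerm (cubicTwist hρ hg).σ.toRingEquiv u).asIdeal =
        Ideal.absNorm u.asIdeal := fun u hu => by
    rw [IsSplit.absNorm hσ hv hu, IsSplit.absNorm hσ hv (isAbove_placePerm hu)]
  have h0 : IsFrobOver (fieldF' ρ) w.asIdeal τ := by
    refine ⟨(mem_fixingSubgroup_fieldF' hρ).2 hq, A, hAw, hd, fun x hx => ?_⟩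
    rw [RankinSelberg.natCard_quotient, RankinSelberg.placeNorm, IsSplit.absNorm hσ hv hw,
      ← RankinSelberg.placeNorm, ← RankinSelberg.natCard_quotient]
    exact hcong x hx
  have htr : ∀ τ' : GalQ, octTrace ρ (g⁻¹ * τ' * g) = octTrace ρ τ' := fun τ' => by
    simp only [octTrace, map_mul, map_inv, Units.val_mul]
    rw [Matrix.trace_units_conj']
  rcases eq_or_eq_of_isAbove hσ hw hw' with rfl | rfl | rfl
  · exact ⟨τ, h0, rfl⟩
  · exact ⟨_, isFrobOver_placePerm hρ hg h0 (hN w hw), htr τ⟩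
  · exact ⟨_, isFrobOver_placePerm hρ hg (isFrobOver_placePerm hρ hg h0 (hN w hw))
      (hN _ (isAbove_placePerm hw)), (htr _).trans (htr τ)⟩

/-- At a split place a Frobenius over a place above is one over the place below. -/
theorem split_frobenius_below {v : HeightOneSpectrum (𝓞 fieldF)}
    (hv : letI := algFieldF hρ
      IsSplit (cubicTwist hρ hg).σ v)
    {w : HeightOneSpectrum (𝓞 (fieldF' ρ))}
    (hw : letI := algFieldF hρ
      IsAbove v w)
    {τ : GalQ} (hτ : IsFrobOver (fieldF' ρ) w.asIdeal τ) :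
    IsFrobOver fieldF v.asIdeal τ := by
  letI := algFieldF hρ
  obtain ⟨hfix, A, hA, hd, hcong⟩ := hτ
  refine ⟨IntermediateField.fixingSubgroup_le (fieldF_le hρ) hfix, A,
    (isAbove_iff_placeAbove hρ hA).1 hw, hd, fun x hx => ?_⟩
  rw [RankinSelberg.natCard_quotient, RankinSelberg.placeNorm,
    ← IsSplit.absNorm (isCubicGen hρ hg) hv hw, ← RankinSelberg.placeNorm,
    ← RankinSelberg.natCard_quotient]
  exact hcong x hx

/-- At an inert place a Frobenius is outside `Q₈` and its cube is a Frobenius at the place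
above. -/
theorem inert_frobenius {v : HeightOneSpectrum (𝓞 fieldF)}
    (hv : letI := algFieldF hρ
      IsInert (cubicTwist hρ hg).σ v)
    {τ : GalQ} (hτ : IsFrobOver fieldF v.asIdeal τ) :
    ρ τ ∉ quatSubgroup ∧
      letI := algFieldF hρ
      ∀ w : HeightOneSpectrum (𝓞 (fieldF' ρ)), IsAbove v w →
        IsFrobOver (fieldF' ρ) w.asIdeal (τ ^ 3) := by
  letI := algFieldF hρ
  have hσ := isCubicGen hρ hg
  obtain ⟨hfixF, A, hA, hd, hcong⟩ := hτ
  obtain ⟨p, -, -, hp, -, -, hAp⟩ := exists_liesOverPrime hA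
  obtain ⟨w, hAw⟩ := exists_place_under (L := fieldF' ρ) hAp hp
  have hw : IsAbove v w := (isAbove_iff_placeAbove hρ hAw).2 hA
  have hNw := IsInert.absNorm hσ hv hw
  refine ⟨fun hq => ?_, fun w' hw' => ?_⟩
  · have hfix := (fixing_fieldF'_iff hρ τ).2 hq
    have h1 := one_lt_absNorm v
    have h := absNorm_le_of_pow_sub_mem w h1 fun x => (hAw _).2 (by
      have hxA : (((x : fieldF' ρ)) : Qbar) ∈ A := place_mem_of_isIntegral A
        ((RingOfIntegers.isIntegral_coe x).map (IsScalarTower.toAlgHom ℤ (fieldF' ρ) Qbar))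
      have h2 := hcong _ hxA
      rw [hfix, RankinSelberg.natCard_quotient] at h2
      have h3 := A.nonunits.neg_mem h2
      simpa [RankinSelberg.placeNorm] using h3)
    rw [hNw] at h
    nlinarith [h, h1, Nat.mul_le_mul h1.le h1.le]
  · rw [IsInert.unique hσ hv hw hw']
    refine ⟨?_, A, hAw, pow_mem hd 3, fun x hx => ?_⟩
    · obtain ⟨i, hi⟩ := exists_pow_mul hρ hg ((mem_fixingSubgroup_fieldF hρ).1 hfixF)
      refine (IntermediateField.mem_fixingSubgroup_iff _ _).2 fun x hx => ?_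
      have hres : ∀ y : fieldF' ρ, τ (y : Qbar) = (g ^ (i : ℕ)) (y : Qbar) := fun y => by
        have h1 := congrArg (g ^ (i : ℕ)) ((fixing_fieldF'_iff hρ _).2 hi y)
        rwa [AlgEquiv.mul_apply, AlgEquiv.aut_inv, AlgEquiv.apply_symm_apply] at h1
      have hord := fun y : fieldF' ρ => congrArg Subtype.val (hσ.order_three y)
      obtain ⟨t, ht, ht3⟩ : ∃ t : fieldF' ρ → fieldF' ρ,
          (∀ y : fieldF' ρ, τ (y : Qbar) = (t y : Qbar)) ∧ ∀ y, t (t (t y)) = y := by
        fin_cases i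
        · exact ⟨id, fun y => hres y, fun _ => rfl⟩
        · exact ⟨(cubicTwist hρ hg).σ, fun y => hres y, hσ.order_three⟩
        · exact ⟨fun y => (cubicTwist hρ hg).σ ((cubicTwist hρ hg).σ y), fun y => hres y,
            fun y => by simp only [hσ.order_three]⟩
      show τ (τ (τ x)) = x
      rw [ht ⟨x, hx⟩, ht, ht, ht3]
    · rw [RankinSelberg.natCard_quotient, RankinSelberg.placeNorm, hNw]
      rw [RankinSelberg.natCard_quotient, RankinSelberg.placeNorm] at hcong
      exact pow_three_congr hd hcong hx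

/-- An auxiliary split place of prime norm prime to `3M`. -/
theorem exists_split_place (M : ℕ) (hM : M ≠ 0) :
    ∃ u : HeightOneSpectrum (𝓞 fieldF), (Ideal.absNorm u.asIdeal).Prime ∧
      ¬ Ideal.absNorm u.asIdeal ∣ 3 * M ∧
      letI := algFieldF hρ
      IsSplit (cubicTwist hρ hg).σ u := by
  classical
  letI := algFieldF hρ
  have hσ := isCubicGen hρ hg
  obtain ⟨C, hC⟩ := Density.exists_abs_splitSum_sub_le ρ hρ.factors hρ.surjective
  have hinf : {p : Nat.Primes | ρ (Density.frobLift p) = 1}.Infinite := by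
    intro hfin
    have hG : (0 : ℝ) < Nat.card (GL (Fin 2) (ZMod 3)) := by
      exact_mod_cast Nat.card_pos
    set X : ℝ := max (Nat.card (GL (Fin 2) (ZMod 3)) * (C + hfin.toFinset.card + 1)) 1 with hX
    have hs1 : (1 : ℝ) < 1 + Real.exp (-X) := lt_add_of_pos_right _ (Real.exp_pos _)
    have hs2 : 1 + Real.exp (-X) ≤ 2 := by
      have : Real.exp (-X) ≤ 1 := Real.exp_le_one_iff.2 (by
        linarith [le_max_right (Nat.card (GL (Fin 2) (ZMod 3)) *
          (C + hfin.toFinset.card + 1) : ℝ) 1])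
      linarith
    have h := (abs_le.1 (hC _ hs1 hs2)).1
    have he : 1 / (1 + Real.exp (-X) - 1) = Real.exp X := by
      rw [add_sub_cancel_left, Real.exp_neg, one_div, inv_inv]
    rw [he, Real.log_exp, tsum_eq_sum (s := hfin.toFinset) fun p hp => by
        rw [if_neg (by simpa using hp), zero_mul]] at h
    have hle := h.trans (sub_le_sub_right (Finset.sum_le_card_nsmul _ _ (1 : ℝ) fun p _ =>
      mul_le_one₀ (by split_ifs <;> norm_num) (by positivity)
        (Real.rpow_le_one_of_one_le_of_nonpos (Nat.one_le_cast.2 p.2.one_le) (by linarith))) _)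
    rw [nsmul_eq_mul, mul_one] at hle
    have hge : C + hfin.toFinset.card + 1 ≤ 1 / Nat.card (GL (Fin 2) (ZMod 3)) * X := by
      rw [one_div, ← div_eq_inv_mul, le_div_iff₀ hG, mul_comm]
      exact le_max_left _ _
    linarith
  set B : Set ℕ := (fun v : HeightOneSpectrum (𝓞 fieldF) => Ideal.absNorm v.asIdeal) ''
    tamePlaces (cubicTwist hρ hg).σ ∪ {p | p ∣ 3 * M} with hB
  have hBfin : B.Finite := ((finite_tamePlaces hσ).image _).union
    ((Set.finite_le_nat (3 * M)).subset fun p hp => Nat.le_of_dvd (by omega) hp)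
  obtain ⟨p, hp1, hpB⟩ := hinf.exists_notMem_finite
    (hBfin.preimage (Subtype.val_injective (p := Nat.Prime)).injOn)
  obtain ⟨A, hA, hF⟩ := Density.exists_frobLift_spec p.2
  obtain ⟨hd, hcong⟩ := isFrobeniusAt_iff.1 hF
  set φ := Density.frobLift p with hφ
  replace hp1 : ρ φ = 1 := hp1
  have hq : ρ φ ∈ quatSubgroup := hp1 ▸ one_mem _
  have hfixF : φ ∈ fieldF.fixingSubgroup := IntermediateField.fixingSubgroup_le (fieldF_le hρ)
    ((mem_fixingSubgroup_fieldF' hρ).2 hq)
  obtain ⟨v, hAv⟩ := exists_place_under (L := fieldF) hA p.2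
  have hle := absNorm_le_of_pow_sub_mem v p.2.one_lt fun x => (hAv _).2 (by
    have hxA : (((x : fieldF)) : Qbar) ∈ A := place_mem_of_isIntegral A
      ((RingOfIntegers.isIntegral_coe x).map (IsScalarTower.toAlgHom ℤ fieldF Qbar))
    have h2 := hcong _ hxA
    rw [(IntermediateField.mem_fixingSubgroup_iff _ _).1 hfixF _ (x : fieldF).2] at h2
    simpa using A.nonunits.neg_mem h2)
  have hnorm : Ideal.absNorm v.asIdeal = p := by
    obtain ⟨l, f, hf, hl, hlv, hn, hAl⟩ := exists_liesOverPrime hAv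
    have hpl : l = p := by
      by_contra hne
      refine v.isPrime.ne_top ((Ideal.eq_top_iff_one _).2 ?_)
      obtain ⟨a, b, hab⟩ := (Nat.isCoprime_iff_coprime.2 ((Nat.coprime_primes hl p.2).2 hne))
      have hpv : ((p : ℕ) : 𝓞 fieldF) ∈ v.asIdeal := (hAv _).2 (by
        have h1 : ((((p : ℕ) : 𝓞 fieldF) : fieldF) : Qbar) = (p : ℕ) := by simp
        rw [h1]; exact hA)
      have h1 : ((a * (l : ℤ) + b * ((p : ℕ) : ℤ) : ℤ) : 𝓞 fieldF) ∈ v.asIdeal := by
        push_cast
        exact v.asIdeal.add_mem (Ideal.mul_mem_left _ _ hlv) (Ideal.mul_mem_left _ _ hpv)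
      rwa [hab, Int.cast_one] at h1
    rw [hpl] at hn
    refine le_antisymm hle ?_
    rw [hn]
    exact Nat.le_self_pow hf.ne' _
  refine ⟨v, hnorm ▸ p.2, fun h => hpB (Or.inr (show (p : ℕ) ∣ 3 * M from hnorm ▸ h)), ?_⟩
  have hτ : IsFrobOver fieldF v.asIdeal φ := by
    refine ⟨hfixF, A, hAv, hd, fun x hx => ?_⟩
    rw [RankinSelberg.natCard_quotient, RankinSelberg.placeNorm, hnorm]
    exact hcong x hx
  have h3v : (3 : 𝓞 fieldF) ∉ v.asIdeal := fun h3 => hpB (Or.inr (dvd_mul_of_dvd_left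
    (Fermat.Agent.Density.natCast_mem_eq p.2 v.isPrime.ne_top (hnorm ▸ Ideal.absNorm_mem _)
      (show ((3 : ℕ) : 𝓞 fieldF) ∈ v.asIdeal by exact_mod_cast h3)) M))
  refine (isInert_or_isSplit hρ hg h3v fun ht => hpB (Or.inl ⟨v, ht, hnorm⟩)).resolve_left
    fun hi => ?_
  exact (inert_frobenius hρ hg hi hτ).1 hq

end Fermat.Agent.Extra.LTGen.GalSide
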