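/-
The base of the general descent from a dihedral form on `F'`.
-/
import Fermat.Agent.Extra.LTGen.Descent.Setup
import Fermat.Agent.Extra.LTGen.Galois.Places
import Fermat.Agent.Extra.LTGen.Galois.RayChar
import Fermat.Agent.LT.Descent.SetupOct

set_option autoImplicit false

noncomputable section

open Fermat.Agent.Galois Fermat.Agent.LT Fermat.Agent.LT.Adelic Fermat.Agent.LT.Tame
open Fermat.Agent.LT.Descent Fermat.Agent.LT.Descent.Places
open NumberField IsDedekindDomain WeierstrassCurve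
open scoped MatrixGroups

namespace Fermat.Agent.Extra.LTGen.GalSide

variable {ρ : GalQ →* GL (Fin 2) (ZMod 3)}

theorem map_mem_quatSubgroup_of_isFrobOver (hρ : IsThreeRho ρ)
    {w : HeightOneSpectrum (𝓞 (fieldF' ρ))} {τ : GalQ}
    (hτ : IsFrobOver (fieldF' ρ) w.asIdeal τ) : ρ τ ∈ quatSubgroup :=
  (fixing_fieldF'_iff hρ τ).1 fun x => (IntermediateField.mem_fixingSubgroup_iff _ _).1 hτ.1 x x.2

variable [NumberField (fieldF' ρ)]

/-- **The base of the descent**: the bad places are those over `3`, the tame ones and those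
dividing the level of the dihedral form. -/
theorem exists_genBase (hρ : IsThreeRho ρ) (hD : HasDihedralFormGen ρ) :
    ∃ (g : GalQ) (hg : ρ g = unipThree),
      letI := algFieldF hρ
      ∃ B : GenBase (cubicTwist hρ hg),
        ∀ w, w ∉ B.bad' → ∀ τ, IsFrobOver (fieldF' ρ) w.asIdeal τ → B.eig w = octTrace ρ τ := by
  classical
  obtain ⟨g, hg⟩ := exists_lift hρ
  letI := algFieldF hρ
  refine ⟨g, hg, ?_⟩
  set tw := cubicTwist hρ hg
  have hgen : IsCubicGen tw.σ := isCubicGen hρ hg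
  obtain ⟨Φ₀, M, U, φ, hM, hMU, hU1, hφ, heig⟩ := hD
  have hM' : ∀ (v : HeightOneSpectrum (𝓞 fieldF)) (w : HeightOneSpectrum (𝓞 (fieldF' ρ))),
      IsAbove v w → ((M : 𝓞 (fieldF' ρ)) ∈ w.asIdeal ↔ (M : 𝓞 fieldF) ∈ v.asIdeal) := by
    intro v w h
    have h1 := h (M : 𝓞 fieldF)
    rwa [map_natCast] at h1
  have hfin : (tamePlaces tw.σ).Finite := finite_tamePlaces hgen
  have hMfin : {v : HeightOneSpectrum (𝓞 fieldF) | (M : 𝓞 fieldF) ∈ v.asIdeal}.Finite :=
    (finite_primes_dvd (Nat.cast_ne_zero.2 hM : (M : 𝓞 fieldF) ≠ 0)).subset fun v hv =>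
      (v.intValuation_lt_one_iff_mem _).2 hv
  set bad : Set (HeightOneSpectrum (𝓞 fieldF)) :=
    threePlaces fieldF ∪ tamePlaces tw.σ ∪
      {v : HeightOneSpectrum (𝓞 fieldF) | (M : 𝓞 fieldF) ∈ v.asIdeal} with hbad
  have hbfin : bad.Finite := (finite_threePlaces.union hfin).union hMfin
  have hgood : ∀ v, v ∉ bad →
      (3 : 𝓞 fieldF) ∉ v.asIdeal ∧ v ∉ tamePlaces tw.σ ∧ (M : 𝓞 fieldF) ∉ v.asIdeal := by
    intro v hv
    exact ⟨fun h => hv (Or.inl (Or.inl h)), fun h => hv (Or.inl (Or.inr h)),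
      fun h => hv (Or.inr h)⟩
  set S' : Set (HeightOneSpectrum (𝓞 (fieldF' ρ))) := placesAbove bad with hS'
  have hbelow : ∀ w, w ∉ S' → ∃ v, v ∉ bad ∧ IsAbove v w := by
    intro w hw
    obtain ⟨v, hv⟩ := exists_below (K := fieldF) w
    exact ⟨v, fun h => hw ⟨v, h, hv⟩, hv⟩
  have hprime : ∀ w, w ∉ S' → PrimeTo M w := by
    intro w hw h
    obtain ⟨v, hv, hvw⟩ := hbelow w hw
    exact (hgood v hv).2.2 ((hM' v w hvw).1 h)
  -- the eigenvalue does not depend on the Frobenius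
  have huniq : ∀ w, w ∉ S' → ∀ τ, IsFrobOver (fieldF' ρ) w.asIdeal τ →
      octEig ρ w = octTrace ρ τ := by
    intro w hw τ hτ
    rw [octEig, dif_pos ⟨τ, hτ⟩]
    exact IsHeckeEigenAt.unique (heig w (hprime w hw) _
        (Exists.choose_spec (⟨τ, hτ⟩ : ∃ τ, IsFrobOver (fieldF' ρ) w.asIdeal τ)))
      (heig w (hprime w hw) τ hτ) hφ.nonzero
  have hsupp : SupportedIn S' (M : 𝓞 (fieldF' ρ)) :=
    ⟨Nat.cast_ne_zero.2 hM, fun w hw => le_antisymm (w.intValuation_le_one _)
      (not_lt.1 fun h => hprime w hw ((w.intValuation_lt_one_iff_mem _).1 h))⟩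
  have hform := isSForm_of_space (Φ := Φ₀) (a := octEig ρ) hU1 hsupp hMU hφ.invariant
    hφ.continuous hφ.bounded hφ.cuspidal hφ.spherical (S := S') fun w hw => by
      obtain ⟨τ, hτ⟩ := exists_isFrobOver_any w
      rw [huniq w hw τ hτ]
      exact heig w (hprime w hw) τ hτ
  obtain ⟨e, b, heb⟩ := exists_frame_match Φ₀ (frameF' hρ hg)
  have hform' := hform.reframe (frameF' hρ hg) heb
  -- the auxiliary place
  obtain ⟨u, hup, hudvd, hsplit⟩ := exists_split_place hρ hg
    (M * ∏ v ∈ hfin.toFinset, Ideal.absNorm v.asIdeal)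
    (mul_ne_zero hM (Finset.prod_ne_zero_iff.2 fun v _ => by
      rw [Ne, Ideal.absNorm_eq_zero_iff]; exact v.ne_bot))
  have hmem : ∀ n : ℕ, (n : 𝓞 fieldF) ∈ u.asIdeal → Ideal.absNorm u.asIdeal ∣ n := fun n hn =>
    Fermat.Agent.Density.natCast_mem_eq hup u.isPrime.ne_top (Ideal.absNorm_mem _) hn
  have hu : u ∉ bad := by
    rintro ((h3 | ht) | hMu)
    · exact hudvd (dvd_mul_of_dvd_left (hmem 3 (by exact_mod_cast h3)) _)
    · exact hudvd (dvd_mul_of_dvd_right (dvd_mul_of_dvd_right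
        (Finset.dvd_prod_of_mem _ (hfin.mem_toFinset.2 ht)) _) _)
    · exact hudvd (dvd_mul_of_dvd_right (dvd_mul_of_dvd_left (hmem M hMu) _) _)
  obtain ⟨ζ, hζ⟩ := HasEnoughRootsOfUnity.exists_primitiveRoot Qbar 3
  refine ⟨{ gen := hgen
            exists_cubeRoot := ⟨⟨ζ, RankinSelberg.cyclotomic_zeta_mem_fieldF hζ⟩,
              IsPrimitiveRoot.of_map_of_injective (f := fieldF.val.toRingHom) hζ
                fieldF.val.injective⟩
            bad := bad
            bad_finite := hbfin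
            three_bad := fun v h => Or.inl (Or.inl h)
            tame_bad := fun v h => Or.inl (Or.inr h)
            u := u
            u_not_bad := hu
            u_split := hsplit
            eig := octEig ρ
            eig_real := fun w hw => ?_
            eig_le := fun w hw => ?_
            eig_twist := fun v w hv hs hw => ?_
            eig_ne_ray := fun N hN η hmul hray T => ?_
            ψ := fun τ g => φ (Space.mk (framePt e b τ) (g : Yf U))
            isForm := hform'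
            ne_zero := fun h0 => ?_ }, fun w hw τ hτ => huniq w hw τ hτ⟩
  · obtain ⟨τ, hτ⟩ := exists_isFrobOver_any w
    rw [huniq w hw τ hτ]
    exact (octTrace_bound (map_mem_quatSubgroup_of_isFrobOver hρ hτ)).1
  · obtain ⟨τ, hτ⟩ := exists_isFrobOver_any w
    rw [huniq w hw τ hτ]
    exact (octTrace_bound (map_mem_quatSubgroup_of_isFrobOver hρ hτ)).2
  · obtain ⟨τ, hτ⟩ := Places.exists_isFrobOver v
    obtain ⟨τ₁, h1, e1⟩ := (split_frobenius hρ hg hs hτ).2 w hw
    obtain ⟨τ₂, h2, e2⟩ := (split_frobenius hρ hg hs hτ).2 _ (isAbove_placePerm hw)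
    rw [huniq _ (fun ⟨v', hv', h⟩ => hv (isAbove_unique hw h ▸ hv')) τ₁ h1,
      huniq _ (fun ⟨v', hv', h⟩ => hv (isAbove_unique (isAbove_placePerm hw) h ▸ hv')) τ₂ h2,
      e1, e2]
  · obtain ⟨w, hwT, hwM, τ, hτ, hne⟩ := exists_octTrace_ne_ray hρ hN η hmul hray
      (T ∪ (finite_placesAbove hgen hbfin).toFinset)
    simp only [Finset.mem_union, Set.Finite.mem_toFinset, not_or] at hwT
    exact ⟨w, hwT.1, hwM, hwT.2, by rw [huniq w hwT.2 τ hτ]; exact hne⟩
  · obtain ⟨x, hx⟩ := hφ.nonzero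
    obtain ⟨y, hy⟩ := QuotientGroup.mk_surjective x.fin
    refine hx ?_
    have := congrFun (congrFun h0 (fun i => conjPt (b i) (x.pt (e i)))) y
    rw [← Space.mk_pt_fin x, ← hy]
    have he : framePt e b (fun i => conjPt (b i) (x.pt (e i))) = x.pt :=
      funext fun j => by simp [framePt]
    simp only [he] at this
    exact this

end Fermat.Agent.Extra.LTGen.GalSide
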