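/-
The exit of the general descent: `StmtDescentGalois`.
-/
import Fermat.Agent.Extra.LTGen.Descent.Pieces
import Fermat.Agent.Extra.LTGen.Galois.Pinning
import Fermat.Agent.Extra.LTGen.Galois.SetupOct
import Fermat.Agent.LT.Descent.Exit

set_option autoImplicit false

noncomputable section

open Fermat.Agent.Galois Fermat.Agent.LT Fermat.Agent.LT.Adelic
open Fermat.Agent.LT.Descent Fermat.Agent.LT.Descent.Places
open NumberField IsDedekindDomain WeierstrassCurve
open scoped MatrixGroups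

namespace Fermat.Agent.Extra.LTGen.GalSide

variable {ρ : GalQ →* GL (Fin 2) (ZMod 3)} [NumberField (fieldF' ρ)]

/-- **The exit of C2.** -/
theorem hasDescentFormGen_of_hasDescended (hρ : IsThreeRho ρ) {g : GalQ} (hg : ρ g = unipThree) :
    letI := algFieldF hρ
    ∀ D : GenData (cubicTwist hρ hg),
      (∀ w, w ∉ D.bad' → ∀ τ, IsFrobOver (fieldF' ρ) w.asIdeal τ → D.base.eig w = octTrace ρ τ) →
      D.HasDescended → HasDescentFormGen ρ := by
  letI := algFieldF hρ
  intro D heig hD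
  classical
  obtain ⟨φ, a, h⟩ := hD
  have hbad : ∀ v, PrimeTo (3 * D.lev₀.modulus) v → v ∉ D.bad := by
    intro v hv hvb
    refine hv ?_
    rw [Nat.cast_mul]
    refine Ideal.mul_mem_left _ _ ?_
    rw [GenLevel.modulus, Nat.cast_mul, Nat.cast_prod]
    refine Ideal.mul_mem_left _ _ (Ideal.prod_mem v.asIdeal (i := v) ?_ (Ideal.absNorm_mem _))
    exact Finset.mem_union_left _ (D.lev₀.bad_finite.mem_toFinset.2 hvb)
  have hdet : ∀ {v : HeightOneSpectrum (𝓞 fieldF)} {σ : GalQ}, IsFrobOver fieldF v.asIdeal σ →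
      Matrix.GeneralLinearGroup.det (ρ σ) = 1 := fun hσ => (hρ.det _).trans
    (MonoidHom.mem_ker.1 ((mem_fixingSubgroup_fieldF hρ).1 hσ.1))
  -- the eigenvalues at good places
  have hsplit : ∀ v ∉ D.bad, IsSplit (cubicTwist hρ hg).σ v → ∀ σ,
      IsFrobOver fieldF v.asIdeal σ → ρ σ ∈ quatSubgroup ∧ a v = octTrace ρ σ := by
    intro v hv hs σ hσ
    obtain ⟨hq, hall⟩ := split_frobenius hρ hg hs hσ
    obtain ⟨w, hw⟩ := exists_isAbove (K' := fieldF' ρ) v
    obtain ⟨τ, hτ, htr⟩ := hall w hw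
    refine ⟨hq, ?_⟩
    rw [h.split v hv hs w hw, heig w (fun hb => hv ((D.mem_bad'_iff hw).1 hb)) τ hτ, htr]
  have hinert : ∀ v ∉ D.bad, IsInert (cubicTwist hρ hg).σ v → ∀ σ,
      IsFrobOver fieldF v.asIdeal σ → ρ σ ∉ quatSubgroup ∧
        a v ^ 3 - 3 * a v = octTrace ρ σ ^ 3 - 3 * octTrace ρ σ := by
    intro v hv hi σ hσ
    obtain ⟨hq, hall⟩ := inert_frobenius hρ hg hi hσ
    obtain ⟨w, hw⟩ := exists_isAbove (K' := fieldF' ρ) v
    refine ⟨hq, ?_⟩
    rw [h.inert v hv hi w hw, heig w (fun hb => hv ((D.mem_bad'_iff hw).1 hb)) _ (hall w hw),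
      octTrace_cube (hdet hσ)]
  have hbound : ∀ v ∉ D.bad, ‖a v‖ ≤ 2 := by
    intro v hv
    obtain ⟨w, hw⟩ := exists_isAbove (K' := fieldF' ρ) v
    have hle : ‖D.base.eig w‖ ≤ 2 := D.eig_le w fun hb => hv ((D.mem_bad'_iff hw).1 hb)
    rcases D.isInert_or_isSplit hv with hi | hs
    · rw [← h.inert v hv hi w hw,
        show a v = ((a v).re : ℂ) from Complex.ext rfl (by simpa using h.real v hv)] at hle
      rw [show a v = ((a v).re : ℂ) from Complex.ext rfl (by simpa using h.real v hv),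
        Complex.norm_real, Real.norm_eq_abs]
      refine abs_le_two_of_cube_sub ?_
      exact_mod_cast hle
    · exact (h.split v hv hs w hw).symm ▸ hle
  obtain ⟨X, hX, hpin⟩ := exists_smallPlaceSet_of_isCuspEigen hρ D.finite_bad D.lev₀.isLevel
    h.eigen h.hecke
    (fun v hv _ σ hσ hq => (D.isInert_or_isSplit hv).elim
      (fun hi => absurd hq (hinert v hv hi σ hσ).1) fun hs => (hsplit v hv hs σ hσ).2)
    (fun v hv _ σ hσ hq => (D.isInert_or_isSplit hv).elim
      (fun hi => (hinert v hv hi σ hσ).2) fun hs => absurd (hsplit v hv hs σ hσ).1 hq)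
  refine ⟨frameF hρ, D.lev₀.modulus, D.lev₀.level, φ, a, X, D.lev₀.modulus_ne_zero,
    D.lev₀.principalLevel_le, D.lev₀.level_le, h.eigen,
    fun v hv => ⟨h.hecke v (hbad v hv), hbound v (hbad v hv), h.real v (hbad v hv)⟩, hX,
    fun v hv σ hσ hor => ?_⟩
  rcases hor with hvX | hq
  · exact hpin v σ hσ hvX
  · exact (D.isInert_or_isSplit (hbad v hv)).elim
      (fun hi => absurd hq (hinert v (hbad v hv) hi σ hσ).1)
      fun hs => (hsplit v (hbad v hv) hs σ hσ).2

/-- **The Galois side of C2.** -/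
theorem stmtDescentGalois : StmtDescentGalois := by
  intro hc hd ρ _ hρ hD
  obtain ⟨g, hg, B, heig⟩ := exists_genBase hρ hD
  letI := algFieldF hρ
  obtain ⟨n, hn, hdesc⟩ := hd _ _ _ _ _ B
  obtain ⟨C, hC⟩ := hc _ _ _ _ _ B n hn
  let D : GenData (cubicTwist hρ hg) :=
    { base := B
      deep := C
      N := n * (27 * C.N₁)
      N_ne := mul_ne_zero hn (mul_ne_zero (by norm_num) C.N₁_ne)
      dvd := dvd_mul_left _ _ }
  exact hasDescentFormGen_of_hasDescended hρ hg D heig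
    (hdesc D rfl hC (Nat.mul_dvd_mul_left n (dvd_mul_left _ 27)))

end Fermat.Agent.Extra.LTGen.GalSide
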